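import Mathlib

/-!
Case I of Fermat for the exponents 5, 7, 11, 13, by the classical theorem of Sophie Germain
(with an auxiliary prime `q`).
-/

set_option autoImplicit false

namespace Fermat.Agent.Lib.FLTSmall

open Finset

section Phi

variable {R : Type*} [CommRing R]

/-- The cofactor of `y + z` in `y ^ p + z ^ p`. -/
def phi (p : ℕ) (y z : R) : R := ∑ i ∈ range p, y ^ i * (-z) ^ (p - 1 - i)

lemma phi_mul_add {p : ℕ} (hp : Odd p) (y z : R) : phi p y z * (y + z) = y ^ p + z ^ p := by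
  have h := (Commute.all y (-z)).geom_sum₂_mul p
  rw [sub_neg_eq_add, hp.neg_pow, sub_neg_eq_add] at h
  exact h

lemma phi_of_add_eq_zero {p : ℕ} (y z : R) (h : y + z = 0) :
    phi p y z = (p : R) * y ^ (p - 1) := by
  have hz : -z = y := by linear_combination -h
  unfold phi
  rw [hz]
  have : ∀ i ∈ range p, y ^ i * y ^ (p - 1 - i) = y ^ (p - 1) := by
    intro i hi
    rw [← pow_add]
    congr 1
    have := mem_range.mp hi
    omega
  rw [sum_congr rfl this, sum_const, card_range, nsmul_eq_mul]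

lemma phi_zero_right {p : ℕ} (hp : 0 < p) (y : R) : phi p y 0 = y ^ (p - 1) := by
  unfold phi
  rw [neg_zero, sum_eq_single (p - 1)]
  · simp
  · intro i hi hne
    have := mem_range.mp hi
    have h0 : p - 1 - i ≠ 0 := by omega
    rw [zero_pow h0, mul_zero]
  · intro h
    exact absurd (mem_range.mpr (by omega)) h

lemma map_phi {S : Type*} [CommRing S] (f : R →+* S) (p : ℕ) (y z : R) :
    f (phi p y z) = phi p (f y) (f z) := by
  simp [phi]

end Phi

/-- `y + z` divides `phi p y z - p * y ^ (p - 1)`. -/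
lemma add_dvd_phi_sub {p : ℕ} (y z : ℤ) : y + z ∣ phi p y z - (p : ℤ) * y ^ (p - 1) := by
  rw [← Ideal.Quotient.eq_zero_iff_dvd, map_sub, map_phi, map_mul, map_pow, map_natCast]
  rw [phi_of_add_eq_zero, sub_self]
  rw [← map_add, Ideal.Quotient.eq_zero_iff_dvd]

lemma isCoprime_add_phi {p : ℕ} (hp : p.Prime) (hodd : Odd p) {x y z : ℤ} (hyz : IsCoprime y z)
    (h : x ^ p + y ^ p + z ^ p = 0) (hpx : ¬ (p : ℤ) ∣ x) : IsCoprime (y + z) (phi p y z) := by
  have hmul : phi p y z * (y + z) = -x ^ p := by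
    rw [phi_mul_add hodd]; linear_combination h
  apply isCoprime_of_prime_dvd
  · rintro ⟨h1, -⟩
    rw [h1, mul_zero] at hmul
    have hx : x = 0 := by
      have : x ^ p = 0 := neg_eq_zero.mp hmul.symm
      exact pow_eq_zero_iff hp.ne_zero |>.mp this
    exact hpx (hx ▸ dvd_zero _)
  · intro r hr hr1 hr2
    have h3 : r ∣ (p : ℤ) * y ^ (p - 1) := by
      have := (hr1.trans (add_dvd_phi_sub (p := p) y z))
      have := dvd_sub hr2 this
      simpa using this
    rcases hr.dvd_or_dvd h3 with h4 | h4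
    · -- r ∣ p
      have hrx : r ∣ x := by
        have : r ∣ x ^ p := by
          have : r ∣ -x ^ p := hmul ▸ (hr1.mul_left _)
          simpa using this
        exact hr.dvd_of_dvd_pow this
      have hpp : Prime (p : ℤ) := Nat.prime_iff_prime_int.mp hp
      have : Associated r (p : ℤ) := hr.associated_of_dvd hpp h4
      exact hpx (this.symm.dvd.trans hrx)
    · have hry : r ∣ y := hr.dvd_of_dvd_pow h4
      have hrz : r ∣ z := by
        have := dvd_sub hr1 hry
        simpa using this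
      exact hr.not_isUnit (hyz.isUnit_of_dvd' hry hrz)

lemma exists_pow_eq {p : ℕ} (hp : p.Prime) (hodd : Odd p) {x y z : ℤ} (hyz : IsCoprime y z)
    (h : x ^ p + y ^ p + z ^ p = 0) (hpx : ¬ (p : ℤ) ∣ x) :
    ∃ a α : ℤ, y + z = a ^ p ∧ phi p y z = α ^ p := by
  have hmul : (y + z) * phi p y z = (-x) ^ p := by
    rw [mul_comm, phi_mul_add hodd, hodd.neg_pow]; linear_combination h
  obtain ⟨⟨a, ha⟩, ⟨α, hα⟩⟩ :=
    Int.eq_pow_of_mul_eq_pow_odd (isCoprime_add_phi hp hodd hyz h hpx) hodd hmul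
  exact ⟨a, α, ha, hα⟩

section Main

variable {p q : ℕ}

/-- Key step: the case where the auxiliary prime divides `x`. -/
lemma sophie_aux (hp : p.Prime) (hodd : Odd p) [Fact q.Prime]
    (h1 : ∀ u v w : ZMod q, u ^ p + v ^ p + w ^ p = 0 → u * v * w = 0)
    (h2 : ∀ u : ZMod q, u ^ p ≠ (p : ZMod q))
    {x y z : ℤ} (hxy : IsCoprime x y) (hyz : IsCoprime y z) (hzx : IsCoprime z x)
    (h : x ^ p + y ^ p + z ^ p = 0)
    (hpx : ¬ (p : ℤ) ∣ x) (hpy : ¬ (p : ℤ) ∣ y) (hpz : ¬ (p : ℤ) ∣ z)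
    (hqx : ((x : ℤ) : ZMod q) = 0) : False := by
  obtain ⟨a, α, ha, hα⟩ := exists_pow_eq hp hodd hyz h hpx
  obtain ⟨b, β, hb, hβ⟩ := exists_pow_eq hp hodd hzx (by linear_combination h) hpy
  obtain ⟨c, γ, hc, -⟩ := exists_pow_eq hp hodd hxy (by linear_combination h) hpz
  -- y, z are nonzero mod q
  have hqx' : (q : ℤ) ∣ x := (ZMod.intCast_zmod_eq_zero_iff_dvd x q).mp hqx
  have hqprime : Prime (q : ℤ) := Nat.prime_iff_prime_int.mp (Fact.out)
  have hy0 : ((y : ℤ) : ZMod q) ≠ 0 := by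
    intro hy
    have hqy : (q : ℤ) ∣ y := (ZMod.intCast_zmod_eq_zero_iff_dvd y q).mp hy
    exact hqprime.not_isUnit (hxy.isUnit_of_dvd' hqx' hqy)
  have hz0 : ((z : ℤ) : ZMod q) ≠ 0 := by
    intro hz
    have hqz : (q : ℤ) ∣ z := (ZMod.intCast_zmod_eq_zero_iff_dvd z q).mp hz
    exact hqprime.not_isUnit (hzx.isUnit_of_dvd' hqz hqx')
  -- c^p + b^p + (-a)^p = 2x = 0 mod q
  have hsum : ((c : ℤ) : ZMod q) ^ p + (b : ZMod q) ^ p + ((-a : ℤ) : ZMod q) ^ p = 0 := by
    have : c ^ p + b ^ p + (-a) ^ p = 2 * x := by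
      rw [hodd.neg_pow, ← ha, ← hb, ← hc]; ring
    have := congrArg (Int.cast : ℤ → ZMod q) this
    push_cast at this
    push_cast
    rw [this, hqx, mul_zero]
  have hprod := h1 _ _ _ hsum
  have ha0 : ((a : ℤ) : ZMod q) = 0 := by
    rcases mul_eq_zero.mp hprod with h3 | h3
    · rcases mul_eq_zero.mp h3 with h4 | h4
      · -- c = 0 mod q, so x + y = 0 mod q, so y = 0
        exfalso
        have := congrArg (Int.cast : ℤ → ZMod q) hc
        push_cast at this
        rw [h4, zero_pow hp.ne_zero, hqx, zero_add] at this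
        exact hy0 this
      · exfalso
        have := congrArg (Int.cast : ℤ → ZMod q) hb
        push_cast at this
        rw [h4, zero_pow hp.ne_zero, hqx, add_zero] at this
        exact hz0 this
    · simpa using h3
  -- y + z = 0 mod q
  have hyz0 : ((y : ℤ) : ZMod q) + (z : ZMod q) = 0 := by
    have := congrArg (Int.cast : ℤ → ZMod q) ha
    push_cast at this
    rw [this, ha0, zero_pow hp.ne_zero]
  have hαq : ((α : ℤ) : ZMod q) ^ p = (p : ZMod q) * (y : ZMod q) ^ (p - 1) := by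
    have := congrArg (Int.castRingHom (ZMod q)) hα
    rw [map_phi, map_pow] at this
    simp only [eq_intCast] at this
    rw [← this, phi_of_add_eq_zero _ _ hyz0]
  have hβq : ((β : ℤ) : ZMod q) ^ p = (y : ZMod q) ^ (p - 1) := by
    have := congrArg (Int.castRingHom (ZMod q)) hβ
    rw [map_phi, map_pow] at this
    simp only [eq_intCast] at this
    rw [← this, hqx, phi_zero_right hp.pos]
    have hz : (z : ZMod q) = -(y : ZMod q) := by linear_combination hyz0
    rw [hz, Even.neg_pow]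
    exact hp.even_sub_one (by rintro rfl; exact absurd hodd (by decide))
  have hypow : ((y : ℤ) : ZMod q) ^ (p - 1) ≠ 0 := pow_ne_zero _ hy0
  have hβ0 : ((β : ℤ) : ZMod q) ≠ 0 := by
    intro h0
    rw [h0, zero_pow hp.ne_zero] at hβq
    exact hypow hβq.symm
  apply h2 ((α : ZMod q) * (β : ZMod q)⁻¹)
  rw [mul_pow, inv_pow, hαq, hβq, mul_inv_cancel_right₀ hypow]

/-- Sophie Germain's theorem, symmetric form. -/
theorem sophie_germain_sym (hp : p.Prime) (hodd : Odd p) [Fact q.Prime]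
    (h1 : ∀ u v w : ZMod q, u ^ p + v ^ p + w ^ p = 0 → u * v * w = 0)
    (h2 : ∀ u : ZMod q, u ^ p ≠ (p : ZMod q))
    {x y z : ℤ} (hxy : IsCoprime x y) (hyz : IsCoprime y z) (hzx : IsCoprime z x)
    (h : x ^ p + y ^ p + z ^ p = 0)
    (hpx : ¬ (p : ℤ) ∣ x) (hpy : ¬ (p : ℤ) ∣ y) (hpz : ¬ (p : ℤ) ∣ z) : False := by
  have hq : ((x : ℤ) : ZMod q) ^ p + (y : ZMod q) ^ p + (z : ZMod q) ^ p = 0 := by
    have := congrArg (Int.cast : ℤ → ZMod q) h
    push_cast at this
    exact this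
  rcases mul_eq_zero.mp (h1 _ _ _ hq) with h3 | h3
  · rcases mul_eq_zero.mp h3 with h4 | h4
    · exact sophie_aux hp hodd h1 h2 hxy hyz hzx h hpx hpy hpz h4
    · exact sophie_aux hp hodd h1 h2 hyz hzx hxy (by linear_combination h) hpy hpz hpx h4
  · exact sophie_aux hp hodd h1 h2 hzx hxy hyz (by linear_combination h) hpz hpx hpy h3

/-- Sophie Germain's theorem: the first case of Fermat for the exponent `p`. -/
theorem sophie_germain (hp : p.Prime) (hodd : Odd p) [Fact q.Prime]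
    (h1 : ∀ u v w : ZMod q, u ^ p + v ^ p + w ^ p = 0 → u * v * w = 0)
    (h2 : ∀ u : ZMod q, u ^ p ≠ (p : ZMod q))
    {a b c : ℤ} (hab : IsCoprime a b) (h : a ^ p + b ^ p = c ^ p) : (p : ℤ) ∣ a * b * c := by
  by_contra hnd
  have hpp : Prime (p : ℤ) := Nat.prime_iff_prime_int.mp hp
  have hpa : ¬ (p : ℤ) ∣ a := fun hd => hnd ((hd.mul_right b).mul_right c)
  have hpb : ¬ (p : ℤ) ∣ b := fun hd => hnd ((hd.mul_left a).mul_right c)
  have hpc : ¬ (p : ℤ) ∣ -c := fun hd => hnd ((dvd_neg.mp hd).mul_left (a * b))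
  have hbc : IsCoprime b (-c) := by
    rw [IsCoprime.neg_right_iff]
    apply isCoprime_of_prime_dvd
    · rintro ⟨rfl, -⟩
      exact hpb (dvd_zero _)
    · intro r hr hrb hrc
      have : r ∣ a ^ p := by
        have h5 : a ^ p = c ^ p - b ^ p := by linear_combination h
        rw [h5]
        exact dvd_sub (dvd_pow hrc hp.ne_zero) (dvd_pow hrb hp.ne_zero)
      exact hr.not_isUnit (hab.isUnit_of_dvd' (hr.dvd_of_dvd_pow this) hrb)
  have hca : IsCoprime (-c) a := by
    rw [IsCoprime.neg_left_iff]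
    apply isCoprime_of_prime_dvd
    · rintro ⟨-, rfl⟩
      exact hpa (dvd_zero _)
    · intro r hr hrc hra
      have : r ∣ b ^ p := by
        have h5 : b ^ p = c ^ p - a ^ p := by linear_combination h
        rw [h5]
        exact dvd_sub (dvd_pow hrc hp.ne_zero) (dvd_pow hra hp.ne_zero)
      exact hr.not_isUnit (hab.isUnit_of_dvd' hra (hr.dvd_of_dvd_pow this))
  refine sophie_germain_sym (q := q) hp hodd h1 h2 hab hbc hca ?_ hpa hpb hpc
  rw [hodd.neg_pow]
  linear_combination h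

/-- Sophie Germain's theorem in the shape requested by the Kummer project. -/
theorem caseI_of_auxPrime {p q : ℕ} (hp : p.Prime) (hp2 : p ≠ 2) (hq : q.Prime)
    (h1 : ∀ x y z : ZMod q, x ^ p + y ^ p + z ^ p = 0 → x = 0 ∨ y = 0 ∨ z = 0)
    (h2 : ∀ x : ZMod q, x ^ p ≠ (p : ZMod q)) {a b c : ℤ} (h : a ^ p + b ^ p = c ^ p)
    (hab : IsCoprime a b) : (p : ℤ) ∣ a * b * c := by
  have : Fact q.Prime := ⟨hq⟩
  refine sophie_germain (q := q) hp (hp.odd_of_ne_two hp2) ?_ h2 hab h
  intro u v w huvw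
  rcases h1 u v w huvw with h0 | h0 | h0 <;> simp [h0]

end Main

section Instances

/-- Reduce hypothesis (1) of Sophie Germain's theorem to a statement on the set of `p`-th powers. -/
lemma h1_of_pows {p q : ℕ} [Fact q.Prime] (hp : p ≠ 0) (T : Finset (ZMod q))
    (hT : ∀ u : ZMod q, u ^ p ∈ T)
    (hsum : ∀ a ∈ T, ∀ b ∈ T, ∀ c ∈ T, a + b + c = 0 → a = 0 ∨ b = 0 ∨ c = 0) :
    ∀ u v w : ZMod q, u ^ p + v ^ p + w ^ p = 0 → u * v * w = 0 := by
  intro u v w h
  rcases hsum _ (hT u) _ (hT v) _ (hT w) h with h0 | h0 | h0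
  · rw [(pow_eq_zero_iff hp).mp h0]; ring
  · rw [(pow_eq_zero_iff hp).mp h0]; ring
  · rw [(pow_eq_zero_iff hp).mp h0]; ring

theorem fact_prime_11 : Fact (Nat.Prime 11) := ⟨by norm_num⟩
theorem fact_prime_23 : Fact (Nat.Prime 23) := ⟨by norm_num⟩
theorem fact_prime_29 : Fact (Nat.Prime 29) := ⟨by norm_num⟩
theorem fact_prime_53 : Fact (Nat.Prime 53) := ⟨by norm_num⟩

attribute [local instance] fact_prime_11 fact_prime_23 fact_prime_29 fact_prime_53

set_option maxRecDepth 100000 in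
theorem caseI_five {a b c : ℤ} (hab : IsCoprime a b) (h : a ^ 5 + b ^ 5 = c ^ 5) :
    ((5 : ℕ) : ℤ) ∣ a * b * c := by
  refine sophie_germain (q := 11) (by norm_num) (by decide) ?_ ?_ hab h
  · exact h1_of_pows (by norm_num) ({0, 1, 10} : Finset (ZMod 11)) (by decide) (by decide)
  · decide

set_option maxRecDepth 100000 in
theorem caseI_seven {a b c : ℤ} (hab : IsCoprime a b) (h : a ^ 7 + b ^ 7 = c ^ 7) :
    ((7 : ℕ) : ℤ) ∣ a * b * c := by
  refine sophie_germain (q := 29) (by norm_num) (by decide) ?_ ?_ hab h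
  · exact h1_of_pows (by norm_num) ({0, 1, 12, 17, 28} : Finset (ZMod 29)) (by decide) (by decide)
  · decide

set_option maxRecDepth 100000 in
theorem caseI_eleven {a b c : ℤ} (hab : IsCoprime a b) (h : a ^ 11 + b ^ 11 = c ^ 11) :
    ((11 : ℕ) : ℤ) ∣ a * b * c := by
  refine sophie_germain (q := 23) (by norm_num) (by decide) ?_ ?_ hab h
  · exact h1_of_pows (by norm_num) ({0, 1, 22} : Finset (ZMod 23)) (by decide) (by decide)
  · decide

set_option maxRecDepth 100000 in
theorem caseI_thirteen {a b c : ℤ} (hab : IsCoprime a b) (h : a ^ 13 + b ^ 13 = c ^ 13) :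
    ((13 : ℕ) : ℤ) ∣ a * b * c := by
  refine sophie_germain (q := 53) (by norm_num) (by decide) ?_ ?_ hab h
  · exact h1_of_pows (by norm_num) ({0, 1, 23, 30, 52} : Finset (ZMod 53)) (by decide) (by decide)
  · decide

/-- Case I of Fermat for the exponents 5, 7, 11, 13: in a primitive solution of
`a ^ p + b ^ p = c ^ p` the exponent divides `a * b * c`. -/
theorem caseI {p : ℕ} (hp : p = 5 ∨ p = 7 ∨ p = 11 ∨ p = 13) {a b c : ℤ} (hab : IsCoprime a b)
    (h : a ^ p + b ^ p = c ^ p) : (p : ℤ) ∣ a * b * c := by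
  rcases hp with rfl | rfl | rfl | rfl
  · exact caseI_five hab h
  · exact caseI_seven hab h
  · exact caseI_eleven hab h
  · exact caseI_thirteen hab h

end Instances

end Fermat.Agent.Lib.FLTSmall
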