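import Fermat.Agent.Lib.FLTSmall.CaseI
import Fermat.Prelude.Def_FLTPrelim_FreyPackage

/-!
Glue for the small exponents: from "case I" and "case II" statements for an odd prime exponent `p`
to the non-existence of Frey packages with that exponent.
-/

set_option autoImplicit false

namespace Fermat.Agent.Lib.FLTSmall

/-- The shape of a case II statement: no primitive solution with `p ∣ c`, `c ≠ 0`. -/
def CaseIIHolds (p : ℕ) : Prop :=
  ∀ {a b c : ℤ}, a ^ p + b ^ p = c ^ p → IsCoprime a b → c ≠ 0 → (p : ℤ) ∣ c → False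

/-- The shape of a case I statement. -/
def CaseIHolds (p : ℕ) : Prop :=
  ∀ {a b c : ℤ}, IsCoprime a b → a ^ p + b ^ p = c ^ p → (p : ℤ) ∣ a * b * c

lemma isCoprime_of_eq_right {p : ℕ} (hp : p ≠ 0) {a b c : ℤ} (hab : IsCoprime a b)
    (h : a ^ p + b ^ p = c ^ p) : IsCoprime c b := by
  apply isCoprime_of_prime_dvd
  · rintro ⟨rfl, rfl⟩
    rw [zero_pow hp, add_zero, pow_eq_zero_iff hp] at h
    subst h
    exact not_isUnit_zero (isCoprime_self.mp hab)
  · intro r hr hrc hrb
    have : r ∣ a ^ p := by
      have h5 : a ^ p = c ^ p - b ^ p := by linear_combination h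
      rw [h5]
      exact dvd_sub (dvd_pow hrc hp) (dvd_pow hrb hp)
    exact hr.not_isUnit (hab.isUnit_of_dvd' (hr.dvd_of_dvd_pow this) hrb)

/-- Case I and case II together exclude all primitive nontrivial solutions. -/
theorem no_solution {p : ℕ} (hp : p.Prime) (hodd : Odd p) (hI : CaseIHolds p) (hII : CaseIIHolds p)
    {a b c : ℤ} (ha : a ≠ 0) (hb : b ≠ 0) (hc : c ≠ 0) (hab : IsCoprime a b)
    (h : a ^ p + b ^ p = c ^ p) : False := by
  have hpp : Prime (p : ℤ) := Nat.prime_iff_prime_int.mp hp
  have hcb : IsCoprime c b := isCoprime_of_eq_right hp.ne_zero hab h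
  have hca : IsCoprime c a :=
    isCoprime_of_eq_right hp.ne_zero hab.symm (by linear_combination h)
  rcases hpp.dvd_or_dvd (hI hab h) with h1 | h1
  · rcases hpp.dvd_or_dvd h1 with h2 | h2
    · -- p ∣ a :  c^p + (-b)^p = a^p
      refine hII (a := c) (b := -b) (c := a) ?_ ?_ ha h2
      · rw [hodd.neg_pow]; linear_combination -h
      · exact hcb.neg_right
    · -- p ∣ b :  c^p + (-a)^p = b^p
      refine hII (a := c) (b := -a) (c := b) ?_ ?_ hb h2
      · rw [hodd.neg_pow]; linear_combination -h
      · exact hca.neg_right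
  · exact hII h hab hc h1

/-- No Frey package has an exponent for which case I and case II hold. -/
theorem no_freyPackage {p : ℕ} (hI : CaseIHolds p) (hII : CaseIIHolds p) (P : FreyPackage)
    (hPp : P.p = p) : False := by
  subst hPp
  have hab : IsCoprime P.a P.b := by
    rw [Int.isCoprime_iff_gcd_eq_one]
    have := P.hgcdab
    have h2 : ((Int.gcd P.a P.b : ℕ) : ℤ) = 1 := this
    exact_mod_cast h2
  exact no_solution P.pp P.hp_odd hI hII P.ha0 P.hb0 P.hc0 hab P.hFLT

theorem caseIHolds_five : CaseIHolds 5 := fun hab h => caseI_five hab h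
theorem caseIHolds_seven : CaseIHolds 7 := fun hab h => caseI_seven hab h
theorem caseIHolds_eleven : CaseIHolds 11 := fun hab h => caseI_eleven hab h
theorem caseIHolds_thirteen : CaseIHolds 13 := fun hab h => caseI_thirteen hab h

end Fermat.Agent.Lib.FLTSmall
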